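/-
S44, insurance route "DEPTH" (architect helper219): TOP LEVEL.

The node `X.NodeSlope` (cover trick) + `NodeES` are replaced by

  NodeBR     (E-side, from the landed `S44/ES/BRm.lean`): every element of the inertia group which
             acts non trivially on `E[p]` moves some integer of `K₀(E[p])` by a NON-deep amount;
  NodeSlopeD (geometry): there is an element of inertia acting non trivially on `E[p]` and moving
             all the integers of `K₀(E[p])` by a deep amount, or the slopes of `ū₁` are constant.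
-/
import Fermat.Agent.S44.X.Eis.Defs

set_option autoImplicit false

noncomputable section

namespace Fermat.Agent.S44.Depth

open ModularCurve AlgebraicCurve Fermat.Agent.S24 Fermat.Agent.GAL Fermat.Agent.S44.X
  WeierstrassCurve WeierstrassCurve.Affine WeierstrassCurve.Affine.Point
  Fermat.Agent.S44.X.Eis

/-- `v(a) > v(p) / (p - 1)`. -/
def DeepD (A : ValuationSubring Qb) (p : ℕ) (a : Qb) : Prop :=
  A.valuation a ^ (p - 1) < A.valuation (p : Qb)

/-- **Node BR** (ramification bound for `E[p]`, `p ∣ abc`). -/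
def NodeBR : Prop :=
  ∀ (P : FreyPackage), (P.p : ℤ) ∣ P.a * P.b * P.c →
    ∀ A : ValuationSubring Qb, A.LiesOverPrime P.p →
      ∀ τ ∈ Iner A, (∃ x : S13.Vp P, τ • x ≠ x) →
        ∃ z ∈ A, (∀ σ ∈ stabE P A, σ z = z) ∧ ¬ DeepD A P.p (τ z - z)

/-- **Node SlopeD** (route DEPTH). -/
def NodeSlopeD : Prop :=
  ∀ (P : FreyPackage) (M' : ℕ) [NeZero M'], Squarefree (M' * P.p) →
    (P.p : ℤ) ∣ P.a * P.b * P.c → ∀ A : ValuationSubring Qb, A.LiesOverPrime P.p →
      ∀ (W : WeierstrassCurve ℤ) (u₀ u₁ : E.kum (M' * P.p) P.p), NewPair P M' A W u₀ u₁ →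
        ∀ ubar : Fk A M', IsRed A (fn u₁) (ubar : LaurentSeries (kA A)) →
        ∀ xbar : Fk A (M' * 4), IsRed A (xU P.p M' (coprime_four P)) (xbar : LaurentSeries (kA A)) →
          (∃ τ ∈ Iner A, (∃ x : S13.Vp P, τ • x ≠ x) ∧
            ∀ z ∈ A, (∀ σ ∈ stabE P A, σ z = z) → DeepD A P.p (τ z - z)) ∨ ∃ c : ℤ,
            (∀ w : Place (kA A) (Fk A (M' * 4)), 0 ≤ w.ord (jk A (M' * 4)) →
              (P.p : ℤ) ∣ w.ord (inclFk A M' 4 ubar) - c * w.ord xbar) ∧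
            (∀ w : Place (kA A) (Fk A (M' * 4)), w.ord (jk A (M' * 4)) < 0 →
              (P.p : ℤ) ∣ w.ord (inclFk A M' 4 ubar))

/-- The frozen statement S44 from the nodes of the route DEPTH. -/
theorem result_of_nodes_depth (hPl : NodePlace) (hV : NodeV) (hBR : NodeBR) (hS : NodeSlopeD)
    (hR : NodeRed) (hNP : NodeNP) (hE : NodeEisW) (hDe : NodeDesc) (hF : NodeF)
    (P : FreyPackage) {N : ℕ} (hcond : P.IsConductorLevel N) (hpN : P.p ∣ N)
    (hirr : GaloisRepIsIrreducible (K := AlgebraicClosure ℚ) ℚ P.freyCurve P.p)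
    (hmod : P.ModularRepOfLevel N) :
    ∃ M : ℕ, M ∣ N ∧ ¬ P.p ∣ M ∧ P.ModularRepOfLevel M := by
  obtain ⟨M', rfl⟩ : ∃ M', N = M' * P.p := ⟨N / P.p, (Nat.div_mul_cancel hpN).symm⟩
  have hM0 : M' ≠ 0 := by
    rintro rfl
    exact absurd hcond.pos (by simp)
  have : NeZero M' := ⟨hM0⟩
  have hpM : ¬ P.p ∣ M' := by
    rintro ⟨c, rfl⟩
    exact hcond.sq_not_dvd P.pp ⟨c, by ring⟩
  refine ⟨M', Dvd.intro _ rfl, hpM, ?_⟩
  obtain ⟨A, hA⟩ := hPl P.p P.pp
  rcases hV P M' hcond hirr hmod A hA with h | ⟨W, u₀, u₁, hW, hN⟩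
  · exact h
  have hsq := hcond.squarefree
  have hpM4 : ¬ P.p ∣ M' * 4 := fun h => hpM ((coprime_four P).dvd_of_dvd_mul_right h)
  obtain ⟨ubar, hu⟩ := hR P.p M' P.pp hpM A hA (fn u₁) (u₁ : (FN (M' * P.p))ˣ).ne_zero
  have hx0 : xU P.p M' (coprime_four P) ≠ 0 := Lib.EtaUnit.unitF_ne_zero Lib.EtaUnit.isW1_G4 _ _ _ _
  obtain ⟨xbar, hx⟩ := hR P.p (M' * 4) P.pp hpM4 A hA _ hx0
  rcases hS P M' hsq (hcond.p_dvd_abc hpN) A hA W u₀ u₁ hN ubar hu xbar hx with ⟨τ, hτ, hmv, hdeep⟩ | ⟨c, h1, h2⟩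
  · obtain ⟨z, hz, hfix, hnd⟩ := hBR P (hcond.p_dvd_abc hpN) A hA τ hτ hmv
    exact absurd (hdeep z hz hfix) hnd
  · have hdiv : ∀ w : Place (kA A) (Fk A (M' * 4)), (P.p : ℤ) ∣ w.ord (inclFk A M' 4 ubar) := by
      intro w
      rcases lt_or_ge (w.ord (jk A (M' * 4))) 0 with hw | hw
      · exact h2 w hw
      · have h3 := h1 w hw
        have h4 : (P.p : ℤ) ∣ c * w.ord xbar :=
          hE P M' hsq A hA W u₀ u₁ hN ubar hu xbar hx c h1 w hw
        have := dvd_add h3 h4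
        simpa using this
    exact hF P M' hsq A hA W u₀ u₁ hW hN
      ⟨ubar, hu, hDe P.p M' P.pp P.hp5 hpM A hA ubar hdiv, hNP P M' hsq A hA W u₀ u₁ hN ubar hu⟩

end Fermat.Agent.S44.Depth

end
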